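/-
S58-6 (row 374, owner helper61; this file: helper67): the counting end of `FrobNotScalar`.

If a map `σ` on a group `G` acted on the `N`-torsion of `G` as an integer scalar `c`, and the
`N`-torsion (of cardinality `N ^ 2`) injected equivariantly into a group `H` carrying an
endomorphism `φ` with `#ker (φ - m) ≤ 2 (m² - a m + ℓ)` for all integers `m`, then replacing `c`
by its balanced residue `m` modulo `N` (`|m| ≤ N / 2`) gives
`N² ≤ 2 (m² - a m + ℓ) ≤ N² / 2 + |a| N + 2 |ℓ|`, which is false as soon as `N > 2 |a| + 4 |ℓ|`.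

* `exists_ne_smul_of_kerBound` : the abstract statement;
* `exists_level_of_red` : the statement on the points `EPt W` of an integral Weierstrass model
  with `Δ ≠ 0`, with the literal conclusion of `FrobNotScalar` (the cardinality `#E[N] = N²` is
  `Lib.ECBiquad.card_torsionBy_int`).
-/
import Mathlib
import Fermat.Agent.S58.Interfaces
import Fermat.Agent.Lib.ECBiquad.Main

set_option autoImplicit false

namespace Fermat.Agent.S58.Red.NotScalar

/-- The balanced residue: every integer is `m + N k` with `2 |m| ≤ N`. -/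
theorem exists_balanced_residue (c : ℤ) (N : ℕ) (hN : 0 < N) :
    ∃ m k : ℤ, c = m + N * k ∧ 2 * |m| ≤ N := by
  have hN' : (0 : ℤ) < N := by exact_mod_cast hN
  have h0 : 0 ≤ c % N := Int.emod_nonneg c hN'.ne'
  have h1 : c % N < N := Int.emod_lt_of_pos c hN'
  have h2 : c % N + N * (c / N) = c := Int.emod_add_mul_ediv c N
  by_cases h : 2 * (c % N) ≤ N
  · refine ⟨c % N, c / N, h2.symm, ?_⟩
    rw [abs_of_nonneg h0]
    exact h
  · refine ⟨c % N - N, c / N + 1, by linarith, ?_⟩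
    rw [abs_of_nonpos (by linarith)]
    linarith

/-- **Counting**: an endomorphism acting on the `N`-torsion as a scalar contradicts the kernel
bound, for `N > 2 |a| + 4 |ℓ|`. -/
theorem exists_ne_smul_of_kerBound {G H : Type*} [AddCommGroup G] [AddCommGroup H]
    (σ : G → G) (φ : H → H) (a ℓ : ℤ) (N : ℕ) (hN : 2 * |a| + 4 * |ℓ| < N)
    (hbound : ∀ m : ℤ, {R : H | φ R = m • R}.Finite ∧
      (({R : H | φ R = m • R}.ncard : ℤ) ≤ 2 * (m ^ 2 - a * m + ℓ)))
    (hcard : Nat.card {P : G // N • P = 0} = N ^ 2) (red : G → H)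
    (hinj : ∀ P Q : G, N • P = 0 → N • Q = 0 → red P = red Q → P = Q)
    (hsmul : ∀ (m : ℤ) (P : G), N • P = 0 → red (m • P) = m • red P)
    (hσ : ∀ P : G, N • P = 0 → red (σ P) = φ (red P)) :
    ∀ c : ℤ, ∃ P : G, N • P = 0 ∧ σ P ≠ c • P := by
  intro c
  by_contra hcon
  have hc : ∀ P : G, N • P = 0 → σ P = c • P := by
    intro P hP
    by_contra hne
    exact hcon ⟨P, hP, hne⟩
  have ha := abs_nonneg a
  have hl := abs_nonneg ℓ
  have hNpos : (0 : ℤ) < N := by linarith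
  have hNpos' : 0 < N := by exact_mod_cast hNpos
  obtain ⟨m, k, hck, hm⟩ := exists_balanced_residue c N hNpos'
  -- `c` and `m` act in the same way on the `N`-torsion
  have hcm : ∀ P : G, N • P = 0 → c • P = m • P := by
    intro P hP
    rw [hck, add_smul, mul_comm, mul_smul, natCast_zsmul, hP, smul_zero, add_zero]
  -- the `N`-torsion injects into the kernel of `φ - m`
  have hmem : ∀ P : {P : G // N • P = 0}, red P.1 ∈ {R : H | φ R = m • R} := by
    intro P
    show φ (red P.1) = m • red P.1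
    rw [← hσ P.1 P.2, hc P.1 P.2, hcm P.1 P.2, hsmul m P.1 P.2]
  have hfin : Finite ↥{R : H | φ R = m • R} := (hbound m).1.to_subtype
  have hle : Nat.card {P : G // N • P = 0} ≤ Nat.card ↥{R : H | φ R = m • R} := by
    apply Nat.card_le_card_of_injective (fun P => (⟨red P.1, hmem P⟩ : ↥{R : H | φ R = m • R}))
    intro P Q hPQ
    have h1 : red P.1 = red Q.1 := congrArg Subtype.val hPQ
    exact Subtype.ext (hinj P.1 Q.1 P.2 Q.2 h1)
  rw [hcard, Nat.card_coe_set_eq] at hle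
  have hle' : ((N : ℤ)) ^ 2 ≤ 2 * (m ^ 2 - a * m + ℓ) := by
    have h1 : ((N ^ 2 : ℕ) : ℤ) ≤ (({R : H | φ R = m • R}.ncard : ℕ) : ℤ) := by exact_mod_cast hle
    have h2 := (hbound m).2
    push_cast at h1
    linarith
  -- arithmetic
  have hu := abs_nonneg m
  have h1 : 4 * m ^ 2 ≤ (N : ℤ) ^ 2 := by
    have h2 : (2 * |m|) ^ 2 ≤ (N : ℤ) ^ 2 := pow_le_pow_left₀ (by positivity) hm 2
    have h3 : |m| ^ 2 = m ^ 2 := sq_abs m
    nlinarith
  have h2 : -(a * m) ≤ |a| * |m| := by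
    rw [← abs_mul]
    exact neg_le_abs _
  have h3 : 2 * (|a| * |m|) ≤ |a| * N := by nlinarith
  have h4 : ℓ ≤ |ℓ| := le_abs_self ℓ
  have h5 : (2 * |a| + 4 * |ℓ|) * N < (N : ℤ) * N := mul_lt_mul_of_pos_right hN hNpos
  have h6 : 4 * |ℓ| ≤ 4 * |ℓ| * N := by nlinarith
  nlinarith

/-- The `N`-torsion of `E(ℚ̄)` has `N ^ 2` elements (subtype form). -/
theorem card_torsion_subtype (W : WeierstrassCurve ℤ) (hΔ : W.Δ ≠ 0) {N : ℕ} (hN : N ≠ 0) :
    Nat.card {P : EPt W // N • P = 0} = N ^ 2 := by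
  rw [← Fermat.Agent.Lib.ECBiquad.card_torsionBy_int W hΔ hN]
  refine Nat.card_congr (Equiv.subtypeEquivRight fun P => ?_)
  rw [Submodule.mem_torsionBy_iff, natCast_zsmul]

/-- **(NS), counting end**: on the points of an integral Weierstrass model with `Δ ≠ 0`, given a
reduction map `red` to a group `H` which is injective and `ℤ`-linear on the `lam`-power torsion
and intertwines `σ` with an endomorphism `φ` of `H` satisfying the kernel bound, `σ` is not a
scalar on `E[lam ^ n]` for some `n`. -/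
theorem exists_level_of_red (W : WeierstrassCurve ℤ) (hΔ : W.Δ ≠ 0) (σ : GQ)
    {H : Type*} [AddCommGroup H] (φ : H → H) (a ℓ : ℤ) (lam : ℕ) (hlam : 2 ≤ lam)
    (hbound : ∀ m : ℤ, {R : H | φ R = m • R}.Finite ∧
      (({R : H | φ R = m • R}.ncard : ℤ) ≤ 2 * (m ^ 2 - a * m + ℓ)))
    (red : EPt W → H)
    (hinj : ∀ (n : ℕ) (P Q : EPt W), lam ^ n • P = 0 → lam ^ n • Q = 0 → red P = red Q → P = Q)
    (hsmul : ∀ (n : ℕ) (m : ℤ) (P : EPt W), lam ^ n • P = 0 → red (m • P) = m • red P)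
    (hσ : ∀ (n : ℕ) (P : EPt W), lam ^ n • P = 0 → red (σ • P) = φ (red P)) :
    ∃ n : ℕ, ∀ c : ℤ, ∃ P : EPt W, lam ^ n • P = 0 ∧ σ • P ≠ c • P := by
  obtain ⟨n, hn⟩ : ∃ n : ℕ, 2 * |a| + 4 * |ℓ| < ((lam ^ n : ℕ) : ℤ) := by
    refine ⟨(2 * |a| + 4 * |ℓ|).toNat, ?_⟩
    have h1 : (2 * |a| + 4 * |ℓ|).toNat < lam ^ (2 * |a| + 4 * |ℓ|).toNat :=
      Nat.lt_pow_self hlam
    have h2 : 2 * |a| + 4 * |ℓ| ≤ ((2 * |a| + 4 * |ℓ|).toNat : ℤ) := Int.self_le_toNat _
    have h3 : (((2 * |a| + 4 * |ℓ|).toNat : ℕ) : ℤ) <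
        ((lam ^ (2 * |a| + 4 * |ℓ|).toNat : ℕ) : ℤ) := by exact_mod_cast h1
    linarith
  have hN0 : lam ^ n ≠ 0 := pow_ne_zero n (by omega)
  exact ⟨n, exists_ne_smul_of_kerBound (fun P => σ • P) φ a ℓ (lam ^ n) hn hbound
    (card_torsion_subtype W hΔ hN0) red (hinj n) (hsmul n) (hσ n)⟩

end Fermat.Agent.S58.Red.NotScalar
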