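/-
S58-PREP, row 374 (FT-RED), core file (helper61).

Reduction of the points of a Weierstrass curve over a valued field, in EVERY residue
characteristic and for a general Weierstrass equation (no Legendre form, no kernel of reduction).

Setting: `K` a field, `A` a valuation subring, `π : A →+* k` a local homomorphism to a field,
`WK`, `Wk` Weierstrass curves over `K`, `k` such that the coefficients of `WK` lie in `A` and
reduce to those of `Wk` (`Model A π WK Wk`), and `Wk.Δ ≠ 0` (good reduction).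

* `Rd A π x c` : `x ∈ A` and `π x = c`; a small calculus (`Rd.add`, `Rd.mul`, `Rd.div`, ...).
* `slope_mul_sub` : the two linear relations satisfied by the slope of the chord/tangent.
* `addX_not_mem` : **key lemma** — if `P`, `Q` are integral points with `red P = - red Q` and
  `P + Q ≠ 0`, then the `x`-coordinate of `P + Q` is NOT integral.
* `add_rd` : the chord-tangent sum of two integral points, when integral, reduces to the sum of
  the reductions.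
* `IsInt`, `redPt`, `redPt_neg`, `redPt_add`, `redPt_eq_zero_iff` : the reduction map on integral
  points.
-/
import Mathlib

set_option autoImplicit false
set_option linter.unusedSectionVars false

namespace Fermat.Agent.S58.Red

open WeierstrassCurve WeierstrassCurve.Affine

section RdCalc

variable {K : Type*} [Field K] (A : ValuationSubring K) {k : Type*} [Field k] (π : A →+* k)

/-- `x` is integral, with reduction `c`. -/
def Rd (x : K) (c : k) : Prop := ∃ a : A, (a : K) = x ∧ π a = c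

variable {A π}

theorem Rd.mem {x : K} {c : k} (h : Rd A π x c) : x ∈ A := by
  obtain ⟨a, rfl, -⟩ := h
  exact a.2

theorem Rd.unique {x : K} {c c' : k} (h : Rd A π x c) (h' : Rd A π x c') : c = c' := by
  obtain ⟨a, ha, rfl⟩ := h
  obtain ⟨b, hb, rfl⟩ := h'
  have : a = b := Subtype.ext (ha.trans hb.symm)
  rw [this]

theorem Rd.congr {x x' : K} {c : k} (h : Rd A π x c) (hx : x = x') : Rd A π x' c := hx ▸ h

theorem rd_coe (a : A) : Rd A π (a : K) (π a) := ⟨a, rfl, rfl⟩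

theorem rd_of_mem {x : K} (hx : x ∈ A) : Rd A π x (π ⟨x, hx⟩) := ⟨⟨x, hx⟩, rfl, rfl⟩

theorem rd_zero : Rd A π (0 : K) 0 := ⟨0, rfl, map_zero π⟩

theorem rd_one : Rd A π (1 : K) 1 := ⟨1, rfl, map_one π⟩

theorem Rd.add {x y : K} {c d : k} (hx : Rd A π x c) (hy : Rd A π y d) :
    Rd A π (x + y) (c + d) := by
  obtain ⟨a, rfl, rfl⟩ := hx
  obtain ⟨b, rfl, rfl⟩ := hy
  exact ⟨a + b, rfl, map_add π a b⟩

theorem Rd.neg {x : K} {c : k} (hx : Rd A π x c) : Rd A π (-x) (-c) := by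
  obtain ⟨a, rfl, rfl⟩ := hx
  exact ⟨-a, rfl, map_neg π a⟩

theorem Rd.sub {x y : K} {c d : k} (hx : Rd A π x c) (hy : Rd A π y d) :
    Rd A π (x - y) (c - d) := by
  obtain ⟨a, rfl, rfl⟩ := hx
  obtain ⟨b, rfl, rfl⟩ := hy
  exact ⟨a - b, rfl, map_sub π a b⟩

theorem Rd.mul {x y : K} {c d : k} (hx : Rd A π x c) (hy : Rd A π y d) :
    Rd A π (x * y) (c * d) := by
  obtain ⟨a, rfl, rfl⟩ := hx
  obtain ⟨b, rfl, rfl⟩ := hy
  exact ⟨a * b, rfl, map_mul π a b⟩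

theorem Rd.pow {x : K} {c : k} (hx : Rd A π x c) (n : ℕ) : Rd A π (x ^ n) (c ^ n) := by
  obtain ⟨a, rfl, rfl⟩ := hx
  exact ⟨a ^ n, rfl, map_pow π a n⟩

theorem rd_two : Rd A π (2 : K) 2 := by
  have h := (rd_one (A := A) (π := π)).add rd_one
  rwa [one_add_one_eq_two, one_add_one_eq_two] at h

theorem rd_three : Rd A π (3 : K) 3 := by
  have h := (rd_two (A := A) (π := π)).add rd_one
  rwa [two_add_one_eq_three, two_add_one_eq_three] at h

theorem Rd.ne_zero {y : K} {d : k} (hy : Rd A π y d) (hd : d ≠ 0) : y ≠ 0 := by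
  obtain ⟨b, rfl, rfl⟩ := hy
  intro h0
  apply hd
  have : b = 0 := Subtype.ext h0
  rw [this, map_zero]

theorem Rd.div [IsLocalHom π] {x y : K} {c d : k} (hx : Rd A π x c) (hy : Rd A π y d)
    (hd : d ≠ 0) : Rd A π (x / y) (c / d) := by
  obtain ⟨a, rfl, rfl⟩ := hx
  obtain ⟨b, rfl, rfl⟩ := hy
  have hu : IsUnit b := isUnit_of_map_unit π b (Ne.isUnit hd)
  obtain ⟨b', hb'⟩ := hu.exists_right_inv
  have hbK : (b : K) * (b' : K) = 1 := by
    have := congrArg (fun t : A => (t : K)) hb'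
    simpa using this
  have hb0 : (b : K) ≠ 0 := left_ne_zero_of_mul_eq_one hbK
  have hπ : π b * π b' = 1 := by rw [← map_mul, hb', map_one]
  refine ⟨a * b', ?_, ?_⟩
  · rw [eq_div_iff hb0]
    push_cast
    linear_combination (a : K) * hbK
  · rw [map_mul, eq_div_iff hd]
    linear_combination (π a) * hπ

/-- A root of a monic quadratic with coefficients in `A` lies in `A`. -/
theorem mem_of_quadratic {L a c : K} (ha : a ∈ A) (hc : c ∈ A) (h : L ^ 2 + a * L - c = 0) :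
    L ∈ A := by
  by_cases hL : L ∈ A
  · exact hL
  · have hinv : L⁻¹ ∈ A := (A.mem_or_inv_mem L).resolve_left hL
    have hL0 : L ≠ 0 := fun h0 => hL (h0 ▸ A.zero_mem)
    have e : L = c * L⁻¹ - a := by
      field_simp
      linear_combination h
    rw [e]
    exact sub_mem (mul_mem hc hinv) ha

end RdCalc

section Slope

variable {F : Type*} [Field F] [DecidableEq F] (W : Affine F)

/-- The two linear relations satisfied by the slope of the chord (or tangent) through two points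
whose sum is not zero. -/
theorem slope_mul_sub {x₁ x₂ y₁ y₂ : F} (h₁ : W.Equation x₁ y₁) (h₂ : W.Equation x₂ y₂)
    (hxy : ¬(x₁ = x₂ ∧ y₁ = W.negY x₂ y₂)) :
    W.slope x₁ x₂ y₁ y₂ * (x₁ - x₂) = y₁ - y₂ ∧
      W.slope x₁ x₂ y₁ y₂ * (y₁ - W.negY x₂ y₂) =
        x₁ ^ 2 + x₁ * x₂ + x₂ ^ 2 + W.a₂ * (x₁ + x₂) + W.a₄ - W.a₁ * y₁ := by
  by_cases hx : x₁ = x₂
  · have hy : y₁ ≠ W.negY x₂ y₂ := fun h => hxy ⟨hx, h⟩
    have hyy : y₁ = y₂ := Y_eq_of_Y_ne h₁ h₂ hx hy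
    subst hx
    subst hyy
    rw [slope_of_Y_ne rfl hy]
    have hne : y₁ - W.negY x₁ y₁ ≠ 0 := sub_ne_zero.mpr hy
    refine ⟨by simp, ?_⟩
    rw [div_mul_cancel₀ _ hne]
    ring
  · rw [slope_of_X_ne hx]
    have hne : x₁ - x₂ ≠ 0 := sub_ne_zero.mpr hx
    refine ⟨div_mul_cancel₀ _ hne, ?_⟩
    rw [equation_iff] at h₁ h₂
    rw [div_mul_eq_mul_div, div_eq_iff hne]
    simp only [negY]
    linear_combination h₁ - h₂

end Slope

section Curve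

variable {K : Type*} [Field K] [DecidableEq K] {A : ValuationSubring K}
  {k : Type*} [Field k] [DecidableEq k] {π : A →+* k}
  {WK : Affine K} {Wk : Affine k}

/-- The coefficients of `WK` are integral and reduce to the coefficients of `Wk`. -/
structure Model (A : ValuationSubring K) (π : A →+* k) (WK : Affine K) (Wk : Affine k) :
    Prop where
  a₁ : Rd A π WK.a₁ Wk.a₁
  a₂ : Rd A π WK.a₂ Wk.a₂
  a₃ : Rd A π WK.a₃ Wk.a₃
  a₄ : Rd A π WK.a₄ Wk.a₄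
  a₆ : Rd A π WK.a₆ Wk.a₆

theorem Model.negY (M : Model A π WK Wk) {x y : K} {c d : k} (rx : Rd A π x c)
    (ry : Rd A π y d) : Rd A π (WK.negY x y) (Wk.negY c d) :=
  (ry.neg.sub (M.a₁.mul rx)).sub M.a₃

theorem Model.addX (M : Model A π WK Wk) {x₁ x₂ L : K} {c₁ c₂ l : k} (rx₁ : Rd A π x₁ c₁)
    (rx₂ : Rd A π x₂ c₂) (rL : Rd A π L l) :
    Rd A π (WK.addX x₁ x₂ L) (Wk.addX c₁ c₂ l) :=
  ((((rL.pow 2).add (M.a₁.mul rL)).sub M.a₂).sub rx₁).sub rx₂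

theorem Model.negAddY (M : Model A π WK Wk) {x₁ x₂ y₁ L : K} {c₁ c₂ d₁ l : k}
    (rx₁ : Rd A π x₁ c₁) (rx₂ : Rd A π x₂ c₂) (ry₁ : Rd A π y₁ d₁) (rL : Rd A π L l) :
    Rd A π (WK.negAddY x₁ x₂ y₁ L) (Wk.negAddY c₁ c₂ d₁ l) :=
  (rL.mul ((M.addX rx₁ rx₂ rL).sub rx₁)).add ry₁

theorem Model.addY (M : Model A π WK Wk) {x₁ x₂ y₁ L : K} {c₁ c₂ d₁ l : k}
    (rx₁ : Rd A π x₁ c₁) (rx₂ : Rd A π x₂ c₂) (ry₁ : Rd A π y₁ d₁) (rL : Rd A π L l) :
    Rd A π (WK.addY x₁ x₂ y₁ L) (Wk.addY c₁ c₂ d₁ l) :=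
  M.negY (M.addX rx₁ rx₂ rL) (M.negAddY rx₁ rx₂ ry₁ rL)

/-- The reduction of an integral point lies on the reduced curve. -/
theorem Model.equation (M : Model A π WK Wk) {x y : K} {c d : k} (h : WK.Equation x y)
    (rx : Rd A π x c) (ry : Rd A π y d) : Wk.Equation c d := by
  rw [equation_iff] at h ⊢
  have l := ((ry.pow 2).add ((M.a₁.mul rx).mul ry)).add (M.a₃.mul ry)
  have r := (((rx.pow 3).add (M.a₂.mul (rx.pow 2))).add (M.a₄.mul rx)).add M.a₆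
  exact (l.congr h).unique r

/-- The reduction of an integral point is a nonsingular point of the reduced curve. -/
theorem Model.nonsingular (M : Model A π WK Wk) (hΔ : Wk.Δ ≠ 0) {x y : K} {c d : k}
    (h : WK.Equation x y) (rx : Rd A π x c) (ry : Rd A π y d) : Wk.Nonsingular c d :=
  (equation_iff_nonsingular_of_Δ_ne_zero hΔ).mp (M.equation h rx ry)

/-- **Key lemma, slope form.** If two integral points have opposite reductions and their sum is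
not zero, the slope of the line through them is not integral. -/
theorem slope_not_mem (M : Model A π WK Wk) {x₁ y₁ x₂ y₂ : K} {c₁ d₁ c₂ d₂ : k}
    (h₁ : WK.Equation x₁ y₁) (h₂ : WK.Equation x₂ y₂)
    (rx₁ : Rd A π x₁ c₁) (ry₁ : Rd A π y₁ d₁) (rx₂ : Rd A π x₂ c₂) (ry₂ : Rd A π y₂ d₂)
    (g₁ : Wk.Nonsingular c₁ d₁) (hc : c₁ = c₂) (hd : d₁ = Wk.negY c₂ d₂)
    (hxy : ¬(x₁ = x₂ ∧ y₁ = WK.negY x₂ y₂)) : WK.slope x₁ x₂ y₁ y₂ ∉ A := by
  intro hL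
  obtain ⟨s1, s2⟩ := slope_mul_sub WK h₁ h₂ hxy
  have rL := rd_of_mem (π := π) hL
  have e1 := ((rL.mul (rx₁.sub rx₂)).congr s1).unique (ry₁.sub ry₂)
  have r2 := (((((rx₁.pow 2).add (rx₁.mul rx₂)).add (rx₂.pow 2)).add
    (M.a₂.mul (rx₁.add rx₂))).add M.a₄).sub (M.a₁.mul ry₁)
  have e2 := ((rL.mul (ry₁.sub (M.negY rx₂ ry₂))).congr s2).unique r2
  subst hc
  have hd12 : d₁ = d₂ := by
    rw [sub_self, mul_zero] at e1
    exact sub_eq_zero.mp e1.symm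
  subst hd12
  rw [← hd, sub_self, mul_zero] at e2
  rw [nonsingular_iff] at g₁
  rcases g₁.2 with h | h
  · apply h
    linear_combination e2
  · exact h hd

/-- **Key lemma.** If two integral points have opposite reductions and their sum is not zero,
the `x`-coordinate of their sum is not integral. -/
theorem addX_not_mem (M : Model A π WK Wk) {x₁ y₁ x₂ y₂ : K} {c₁ d₁ c₂ d₂ : k}
    (h₁ : WK.Equation x₁ y₁) (h₂ : WK.Equation x₂ y₂)
    (rx₁ : Rd A π x₁ c₁) (ry₁ : Rd A π y₁ d₁) (rx₂ : Rd A π x₂ c₂) (ry₂ : Rd A π y₂ d₂)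
    (g₁ : Wk.Nonsingular c₁ d₁) (hc : c₁ = c₂) (hd : d₁ = Wk.negY c₂ d₂)
    (hxy : ¬(x₁ = x₂ ∧ y₁ = WK.negY x₂ y₂)) :
    WK.addX x₁ x₂ (WK.slope x₁ x₂ y₁ y₂) ∉ A := by
  intro hX
  apply slope_not_mem M h₁ h₂ rx₁ ry₁ rx₂ ry₂ g₁ hc hd hxy
  refine mem_of_quadratic (a := WK.a₁)
    (c := WK.a₂ + x₁ + x₂ + WK.addX x₁ x₂ (WK.slope x₁ x₂ y₁ y₂)) M.a₁.mem
    (add_mem (add_mem (add_mem M.a₂.mem rx₁.mem) rx₂.mem) hX) ?_
  simp only [Affine.addX]
  ring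

variable [IsLocalHom π]

/-- The slope through two integral points whose reductions do not sum to zero is integral and
reduces to the slope through the reductions. -/
theorem slope_rd (M : Model A π WK Wk) {x₁ y₁ x₂ y₂ : K} {c₁ d₁ c₂ d₂ : k}
    (h₁ : WK.Equation x₁ y₁) (h₂ : WK.Equation x₂ y₂)
    (rx₁ : Rd A π x₁ c₁) (ry₁ : Rd A π y₁ d₁) (rx₂ : Rd A π x₂ c₂) (ry₂ : Rd A π y₂ d₂)
    (hxy : ¬(x₁ = x₂ ∧ y₁ = WK.negY x₂ y₂)) (hcd : ¬(c₁ = c₂ ∧ d₁ = Wk.negY c₂ d₂)) :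
    Rd A π (WK.slope x₁ x₂ y₁ y₂) (Wk.slope c₁ c₂ d₁ d₂) := by
  obtain ⟨s1, s2⟩ := slope_mul_sub WK h₁ h₂ hxy
  obtain ⟨t1, t2⟩ := slope_mul_sub Wk (M.equation h₁ rx₁ ry₁) (M.equation h₂ rx₂ ry₂) hcd
  by_cases hc : c₁ = c₂
  · have hd : d₁ ≠ Wk.negY c₂ d₂ := fun h => hcd ⟨hc, h⟩
    have hne : d₁ - Wk.negY c₂ d₂ ≠ 0 := sub_ne_zero.mpr hd
    have rD := ry₁.sub (M.negY rx₂ ry₂)
    have hD0 : y₁ - WK.negY x₂ y₂ ≠ 0 := rD.ne_zero hne
    have r2 := (((((rx₁.pow 2).add (rx₁.mul rx₂)).add (rx₂.pow 2)).add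
      (M.a₂.mul (rx₁.add rx₂))).add M.a₄).sub (M.a₁.mul ry₁)
    have e : WK.slope x₁ x₂ y₁ y₂ =
        (x₁ ^ 2 + x₁ * x₂ + x₂ ^ 2 + WK.a₂ * (x₁ + x₂) + WK.a₄ - WK.a₁ * y₁) /
          (y₁ - WK.negY x₂ y₂) := by
      rw [eq_div_iff hD0]
      exact s2
    have e' : Wk.slope c₁ c₂ d₁ d₂ =
        (c₁ ^ 2 + c₁ * c₂ + c₂ ^ 2 + Wk.a₂ * (c₁ + c₂) + Wk.a₄ - Wk.a₁ * d₁) /
          (d₁ - Wk.negY c₂ d₂) := by
      rw [eq_div_iff hne]
      exact t2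
    rw [e, e']
    exact r2.div rD hne
  · have hne : c₁ - c₂ ≠ 0 := sub_ne_zero.mpr hc
    have rD := rx₁.sub rx₂
    have hD0 : x₁ - x₂ ≠ 0 := rD.ne_zero hne
    have e : WK.slope x₁ x₂ y₁ y₂ = (y₁ - y₂) / (x₁ - x₂) := by
      rw [eq_div_iff hD0]
      exact s1
    have e' : Wk.slope c₁ c₂ d₁ d₂ = (d₁ - d₂) / (c₁ - c₂) := by
      rw [eq_div_iff hne]
      exact t1
    rw [e, e']
    exact (ry₁.sub ry₂).div rD hne

/-- **Reduction is compatible with the chord-tangent law** on integral points whose sum is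
integral or zero. -/
theorem add_rd (M : Model A π WK Wk) {x₁ y₁ x₂ y₂ : K} {c₁ d₁ c₂ d₂ : k}
    (h₁ : WK.Nonsingular x₁ y₁) (h₂ : WK.Nonsingular x₂ y₂)
    (g₁ : Wk.Nonsingular c₁ d₁) (g₂ : Wk.Nonsingular c₂ d₂)
    (rx₁ : Rd A π x₁ c₁) (ry₁ : Rd A π y₁ d₁) (rx₂ : Rd A π x₂ c₂) (ry₂ : Rd A π y₂ d₂) :
    (Point.some x₁ y₁ h₁ + Point.some x₂ y₂ h₂ = 0 →
        Point.some c₁ d₁ g₁ + Point.some c₂ d₂ g₂ = 0) ∧
      ∀ (x₃ y₃ : K) (h₃ : WK.Nonsingular x₃ y₃) (c₃ d₃ : k) (g₃ : Wk.Nonsingular c₃ d₃),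
        Point.some x₁ y₁ h₁ + Point.some x₂ y₂ h₂ = Point.some x₃ y₃ h₃ →
        Rd A π x₃ c₃ → Rd A π y₃ d₃ →
        Point.some c₁ d₁ g₁ + Point.some c₂ d₂ g₂ = Point.some c₃ d₃ g₃ := by
  constructor
  · intro h0
    have hxy : x₁ = x₂ ∧ y₁ = WK.negY x₂ y₂ := by
      by_contra hxy
      rw [Point.add_some hxy] at h0
      exact Point.some_ne_zero _ h0
    have hc : c₁ = c₂ := (rx₁.congr hxy.1).unique rx₂
    have hd : d₁ = Wk.negY c₂ d₂ := (ry₁.congr hxy.2).unique (M.negY rx₂ ry₂)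
    exact Point.add_of_Y_eq hc hd
  · intro x₃ y₃ h₃ c₃ d₃ g₃ hadd rx₃ ry₃
    have hxy : ¬(x₁ = x₂ ∧ y₁ = WK.negY x₂ y₂) := by
      intro hxy
      rw [Point.add_of_Y_eq hxy.1 hxy.2] at hadd
      exact Point.some_ne_zero _ hadd.symm
    rw [Point.add_some hxy, Point.some.injEq] at hadd
    obtain ⟨hx₃, hy₃⟩ := hadd
    have hcd : ¬(c₁ = c₂ ∧ d₁ = Wk.negY c₂ d₂) := by
      intro hcd
      apply addX_not_mem M h₁.1 h₂.1 rx₁ ry₁ rx₂ ry₂ g₁ hcd.1 hcd.2 hxy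
      rw [hx₃]
      exact rx₃.mem
    have rL := slope_rd M h₁.1 h₂.1 rx₁ ry₁ rx₂ ry₂ hxy hcd
    have ex : Wk.addX c₁ c₂ (Wk.slope c₁ c₂ d₁ d₂) = c₃ :=
      ((M.addX rx₁ rx₂ rL).congr hx₃).unique rx₃
    have ey : Wk.addY c₁ c₂ d₁ (Wk.slope c₁ c₂ d₁ d₂) = d₃ :=
      ((M.addY rx₁ rx₂ ry₁ rL).congr hy₃).unique ry₃
    rw [Point.add_some hcd, Point.some.injEq]
    exact ⟨ex, ey⟩

/-! ### The reduction map -/

/-- Integral points (the point at infinity is integral). -/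
def IsInt (A : ValuationSubring K) : WK.Point → Prop
  | .zero => True
  | .some x y _ => x ∈ A ∧ y ∈ A

theorem isInt_zero : IsInt A (0 : WK.Point) := trivial

theorem isInt_some {x y : K} {h : WK.Nonsingular x y} :
    IsInt A (Point.some x y h) ↔ x ∈ A ∧ y ∈ A := Iff.rfl

/-- The reduction map on points (junk value `0` at non-integral points). -/
noncomputable def redPt (M : Model A π WK Wk) (hΔ : Wk.Δ ≠ 0) : WK.Point → Wk.Point
  | .zero => 0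
  | .some x y h =>
    @dite _ (x ∈ A ∧ y ∈ A) (Classical.propDecidable _)
      (fun hxy => .some (π ⟨x, hxy.1⟩) (π ⟨y, hxy.2⟩)
        (M.nonsingular hΔ h.1 (rd_of_mem hxy.1) (rd_of_mem hxy.2)))
      (fun _ => 0)

theorem redPt_zero (M : Model A π WK Wk) (hΔ : Wk.Δ ≠ 0) : redPt M hΔ 0 = 0 := rfl

theorem redPt_some_rd (M : Model A π WK Wk) (hΔ : Wk.Δ ≠ 0) {x y : K}
    {h : WK.Nonsingular x y} {c d : k} (rx : Rd A π x c)
    (ry : Rd A π y d) (g : Wk.Nonsingular c d) :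
    redPt M hΔ (Point.some x y h) = Point.some c d g := by
  have hxy : x ∈ A ∧ y ∈ A := ⟨rx.mem, ry.mem⟩
  rw [redPt, dif_pos hxy, Point.some.injEq]
  exact ⟨(rd_of_mem hxy.1).unique rx, (rd_of_mem hxy.2).unique ry⟩

theorem redPt_some_of_not (M : Model A π WK Wk) (hΔ : Wk.Δ ≠ 0) {x y : K}
    {h : WK.Nonsingular x y} (hxy : ¬(x ∈ A ∧ y ∈ A)) :
    redPt M hΔ (Point.some x y h) = 0 := by
  rw [redPt, dif_neg hxy]

/-- An integral point with zero reduction is zero. -/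
theorem redPt_eq_zero_iff (M : Model A π WK Wk) (hΔ : Wk.Δ ≠ 0) {P : WK.Point}
    (hP : IsInt A P) : redPt M hΔ P = 0 ↔ P = 0 := by
  rcases P with _ | ⟨x, y, h⟩
  · exact ⟨fun _ => rfl, fun _ => rfl⟩
  · have hxy : x ∈ A ∧ y ∈ A := hP
    constructor
    · intro h0
      rw [redPt_some_rd M hΔ (rd_of_mem hxy.1) (rd_of_mem hxy.2)
        (M.nonsingular hΔ h.1 (rd_of_mem hxy.1) (rd_of_mem hxy.2))] at h0
      exact absurd h0 (Point.some_ne_zero _)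
    · intro h0
      exact absurd h0 (Point.some_ne_zero _)

theorem isInt_neg (M : Model A π WK Wk) {P : WK.Point} (hP : IsInt A P) : IsInt A (-P) := by
  rcases P with _ | ⟨x, y, h⟩
  · exact trivial
  · have hxy : x ∈ A ∧ y ∈ A := hP
    rw [Point.neg_some]
    exact ⟨hxy.1, (M.negY (rd_of_mem hxy.1) (rd_of_mem hxy.2)).mem⟩

theorem redPt_neg (M : Model A π WK Wk) (hΔ : Wk.Δ ≠ 0) {P : WK.Point} (hP : IsInt A P) :
    redPt M hΔ (-P) = -redPt M hΔ P := by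
  rcases P with _ | ⟨x, y, h⟩
  · rfl
  · have hxy : x ∈ A ∧ y ∈ A := hP
    have rx := rd_of_mem (π := π) hxy.1
    have ry := rd_of_mem (π := π) hxy.2
    have g := M.nonsingular hΔ h.1 rx ry
    rw [redPt_some_rd M hΔ rx ry g, Point.neg_some, Point.neg_some]
    exact redPt_some_rd M hΔ rx (M.negY rx ry) _

/-- **The reduction map is additive** on integral points with integral sum. -/
theorem redPt_add (M : Model A π WK Wk) (hΔ : Wk.Δ ≠ 0) {P Q : WK.Point} (hP : IsInt A P)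
    (hQ : IsInt A Q) (hPQ : IsInt A (P + Q)) :
    redPt M hΔ (P + Q) = redPt M hΔ P + redPt M hΔ Q := by
  rcases P with _ | ⟨x₁, y₁, h₁⟩
  · change redPt M hΔ (0 + Q) = redPt M hΔ 0 + _
    rw [zero_add, redPt_zero, zero_add]
  rcases Q with _ | ⟨x₂, y₂, h₂⟩
  · change redPt M hΔ (_ + 0) = _ + redPt M hΔ 0
    rw [add_zero, redPt_zero, add_zero]
  have hxy₁ : x₁ ∈ A ∧ y₁ ∈ A := hP
  have hxy₂ : x₂ ∈ A ∧ y₂ ∈ A := hQ
  have rx₁ := rd_of_mem (π := π) hxy₁.1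
  have ry₁ := rd_of_mem (π := π) hxy₁.2
  have rx₂ := rd_of_mem (π := π) hxy₂.1
  have ry₂ := rd_of_mem (π := π) hxy₂.2
  have g₁ := M.nonsingular hΔ h₁.1 rx₁ ry₁
  have g₂ := M.nonsingular hΔ h₂.1 rx₂ ry₂
  obtain ⟨H0, H1⟩ := add_rd M h₁ h₂ g₁ g₂ rx₁ ry₁ rx₂ ry₂
  rw [redPt_some_rd M hΔ rx₁ ry₁ g₁, redPt_some_rd M hΔ rx₂ ry₂ g₂]
  rcases hS : Point.some x₁ y₁ h₁ + Point.some x₂ y₂ h₂ with _ | ⟨x₃, y₃, h₃⟩
  · rw [H0 hS]
    rfl
  · rw [hS] at hPQ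
    have hxy₃ : x₃ ∈ A ∧ y₃ ∈ A := hPQ
    have rx₃ := rd_of_mem (π := π) hxy₃.1
    have ry₃ := rd_of_mem (π := π) hxy₃.2
    have g₃ := M.nonsingular hΔ h₃.1 rx₃ ry₃
    rw [redPt_some_rd M hΔ rx₃ ry₃ g₃]
    exact (H1 x₃ y₃ h₃ _ _ g₃ hS rx₃ ry₃).symm

end Curve

end Fermat.Agent.S58.Red
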