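/-
S58-PREP, row 374 (FT-RED), second file (helper61).

Integrality of the torsion of order prime to the residue characteristic (every residue
characteristic, general Weierstrass equation), and the reduction homomorphism on it.

* `mem_of_zsmul_eq_zero` : a point killed by an integer which is nonzero in the residue field has
  integral coordinates (division-polynomial criterion `Lib.ECTors.zsmul_eq_zero_iff`, unit
  leading coefficient `n²` of `ΨSq_n`).
* `torsSub k WK` : the subgroup of these torsion points.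
* `redHom` : the reduction map as an injective additive homomorphism on `torsSub`;
  pointwise forms `redPt_add_of_mem`, `redPt_sub_of_mem`, `redPt_zsmul_of_mem`,
  `redPt_eq_zero_of_mem`.
-/
import Mathlib
import Fermat.Agent.Lib.ECTors.MulFormula
import Fermat.Agent.EC.FrobFixed.Val
import Fermat.Agent.S58.Red.Core

set_option autoImplicit false
set_option linter.unusedSectionVars false

namespace Fermat.Agent.S58.Red

open WeierstrassCurve WeierstrassCurve.Affine Polynomial

section Tors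

variable {K : Type*} [Field K] [DecidableEq K] {A : ValuationSubring K}
  {k : Type*} [Field k] [DecidableEq k] {π : A →+* k} [IsLocalHom π]
  {WK : Affine K} {Wk : Affine k}

/-- A model comes from a Weierstrass curve over the valuation ring. -/
theorem Model.exists_lift (M : Model A π WK Wk) :
    ∃ WA : WeierstrassCurve A, WK = WA.map A.subtype := by
  obtain ⟨α₁, h₁, -⟩ := M.a₁
  obtain ⟨α₂, h₂, -⟩ := M.a₂
  obtain ⟨α₃, h₃, -⟩ := M.a₃
  obtain ⟨α₄, h₄, -⟩ := M.a₄
  obtain ⟨α₆, h₆, -⟩ := M.a₆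
  refine ⟨⟨α₁, α₂, α₃, α₄, α₆⟩, ?_⟩
  ext <;> simp [h₁, h₂, h₃, h₄, h₆]

/-- Integers which are nonzero in the residue field are units of `A`. -/
theorem isUnit_intCast (f : A →+* k) [IsLocalHom f] {n : ℤ} (hn : (n : k) ≠ 0) :
    IsUnit ((n : ℤ) : A) := by
  apply isUnit_of_map_unit f
  rw [map_intCast]
  exact Ne.isUnit hn

/-- **Integrality of torsion points** of order prime to the residue characteristic. -/
theorem mem_of_zsmul_eq_zero (M : Model A π WK Wk) {x y : K} (h : WK.Nonsingular x y) {n : ℤ}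
    (hn : (n : k) ≠ 0) (htors : n • Point.some x y h = 0) : x ∈ A ∧ y ∈ A := by
  have hx : x ∈ A := by
    obtain ⟨WA, rfl⟩ := M.exists_lift
    have hx0 : ((WA.map A.subtype).ΨSq n).eval x = 0 :=
      (Fermat.Agent.Lib.ECTors.zsmul_eq_zero_iff _ h n).mp htors
    have hu : IsUnit ((n : ℤ) : A) := isUnit_intCast π hn
    have hv : A.valuation ((n : ℤ) : K) = 1 := by
      have := (A.valuation_eq_one_iff _).mp hu
      simpa using this
    have hnK : ((n : ℤ) : K) ≠ 0 := by
      intro h0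
      rw [h0, map_zero] at hv
      exact zero_ne_one hv
    rw [← A.valuation_le_one_iff]
    refine Fermat.Agent.EC.FrobFixed.val_root_le_one A.valuation ?_ ?_ hx0
    · intro i
      rw [map_ΨSq, coeff_map]
      exact A.valuation_le_one _
    · rw [leadingCoeff_ΨSq _ hnK, map_pow, hv, one_pow]
  refine ⟨hx, ?_⟩
  have he := h.1
  rw [equation_iff] at he
  refine mem_of_quadratic (a := WK.a₁ * x + WK.a₃)
    (c := x ^ 3 + WK.a₂ * x ^ 2 + WK.a₄ * x + WK.a₆) ?_ ?_ ?_
  · exact add_mem (mul_mem M.a₁.mem hx) M.a₃.mem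
  · exact add_mem (add_mem (add_mem (pow_mem hx 3) (mul_mem M.a₂.mem (pow_mem hx 2)))
      (mul_mem M.a₄.mem hx)) M.a₆.mem
  · linear_combination he

variable (k) in
/-- The torsion of order prime to the residue characteristic. -/
def torsSub (WK : Affine K) : AddSubgroup WK.Point where
  carrier := {P | ∃ n : ℤ, (n : k) ≠ 0 ∧ n • P = 0}
  zero_mem' := ⟨1, by simp, by simp⟩
  add_mem' := by
    rintro P Q ⟨m, hm, hP⟩ ⟨n, hn, hQ⟩
    refine ⟨m * n, by push_cast; exact mul_ne_zero hm hn, ?_⟩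
    have e1 : (m * n) • P = 0 := by rw [mul_comm, mul_smul, hP, smul_zero]
    have e2 : (m * n) • Q = 0 := by rw [mul_smul, hQ, smul_zero]
    rw [smul_add, e1, e2, add_zero]
  neg_mem' := by
    rintro P ⟨m, hm, hP⟩
    exact ⟨m, hm, by rw [smul_neg, hP, neg_zero]⟩

theorem mem_torsSub {P : WK.Point} :
    P ∈ torsSub k WK ↔ ∃ n : ℤ, (n : k) ≠ 0 ∧ n • P = 0 := Iff.rfl

theorem mem_torsSub_of_nsmul {P : WK.Point} {m : ℕ} (hm : (m : k) ≠ 0) (h : m • P = 0) :
    P ∈ torsSub k WK :=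
  ⟨(m : ℤ), by simpa using hm, by rw [natCast_zsmul]; exact h⟩

theorem isInt_of_mem_torsSub (M : Model A π WK Wk) {P : WK.Point} (hP : P ∈ torsSub k WK) :
    IsInt A P := by
  rcases P with _ | ⟨x, y, h⟩
  · trivial
  · obtain ⟨n, hn, hP⟩ := hP
    exact mem_of_zsmul_eq_zero M h hn hP

/-- **The reduction homomorphism** on the torsion of order prime to the residue
characteristic. -/
noncomputable def redHom (M : Model A π WK Wk) (hΔ : Wk.Δ ≠ 0) : torsSub k WK →+ Wk.Point where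
  toFun P := redPt M hΔ P
  map_zero' := redPt_zero M hΔ
  map_add' P Q := redPt_add M hΔ (isInt_of_mem_torsSub M P.2) (isInt_of_mem_torsSub M Q.2)
    (isInt_of_mem_torsSub M (P + Q).2)

theorem redHom_apply (M : Model A π WK Wk) (hΔ : Wk.Δ ≠ 0) (P : torsSub k WK) :
    redHom M hΔ P = redPt M hΔ P := rfl

theorem redHom_injective (M : Model A π WK Wk) (hΔ : Wk.Δ ≠ 0) :
    Function.Injective (redHom M hΔ) :=
  (injective_iff_map_eq_zero _).mpr fun P hP =>
    Subtype.ext ((redPt_eq_zero_iff M hΔ (isInt_of_mem_torsSub M P.2)).mp hP)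

theorem redPt_add_of_mem (M : Model A π WK Wk) (hΔ : Wk.Δ ≠ 0) {P Q : WK.Point}
    (hP : P ∈ torsSub k WK) (hQ : Q ∈ torsSub k WK) :
    redPt M hΔ (P + Q) = redPt M hΔ P + redPt M hΔ Q :=
  (redHom M hΔ).map_add ⟨P, hP⟩ ⟨Q, hQ⟩

theorem redPt_sub_of_mem (M : Model A π WK Wk) (hΔ : Wk.Δ ≠ 0) {P Q : WK.Point}
    (hP : P ∈ torsSub k WK) (hQ : Q ∈ torsSub k WK) :
    redPt M hΔ (P - Q) = redPt M hΔ P - redPt M hΔ Q :=
  (redHom M hΔ).map_sub ⟨P, hP⟩ ⟨Q, hQ⟩

theorem redPt_zsmul_of_mem (M : Model A π WK Wk) (hΔ : Wk.Δ ≠ 0) {P : WK.Point}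
    (hP : P ∈ torsSub k WK) (n : ℤ) : redPt M hΔ (n • P) = n • redPt M hΔ P :=
  map_zsmul (redHom M hΔ) n ⟨P, hP⟩

theorem redPt_eq_zero_of_mem (M : Model A π WK Wk) (hΔ : Wk.Δ ≠ 0) {P : WK.Point}
    (hP : P ∈ torsSub k WK) : redPt M hΔ P = 0 ↔ P = 0 :=
  redPt_eq_zero_iff M hΔ (isInt_of_mem_torsSub M hP)

theorem redPt_injOn (M : Model A π WK Wk) (hΔ : Wk.Δ ≠ 0) {P Q : WK.Point}
    (hP : P ∈ torsSub k WK) (hQ : Q ∈ torsSub k WK) (h : redPt M hΔ P = redPt M hΔ Q) :
    P = Q := by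
  exact congrArg Subtype.val (redHom_injective M hΔ
    (show redHom M hΔ ⟨P, hP⟩ = redHom M hΔ ⟨Q, hQ⟩ from h))

end Tors

end Fermat.Agent.S58.Red
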