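/-
S58-PREP, row 374 (FT-RED), final file (helper61).

The reduction map of `Red/Core`, `Red/Tors` for an integral Weierstrass model `W` at a valuation
subring `A` of `ℚ̄` over a prime `ℓ ∤ Δ` (EVERY prime, `2` and `3` included), and the three
interface statements of the row:

* `goodUnram : GoodUnram`;
* `frobQuad_of : (∀ ℓ W K, W.Δ ≠ 0 → QuadBar ℓ W K) → FrobQuad`;
* `frobNotScalar_of : (∀ ℓ W K, W.Δ ≠ 0 → KerBoundBar ℓ W K) → FrobNotScalar`
  (counting end: helper67's `Red/NotScalar.exists_level_of_red`).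
-/
import Mathlib
import Fermat.Agent.S58.Interfaces
import Fermat.Agent.S58.FTInterfaces
import Fermat.Agent.S58.Red.Tors
import Fermat.Agent.S58.Red.NotScalar
import Fermat.Agent.S05.Inertia
import Fermat.Agent.ESJ.Cong.NormRedAnalytic
import Fermat.Agent.Lib.FF.CharP.ModLInst

set_option autoImplicit false
set_option linter.unusedSectionVars false
set_option linter.style.haveILetI false

namespace Fermat.Agent.S58.Red

open WeierstrassCurve WeierstrassCurve.Affine IsLocalRing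
open scoped WeierstrassCurve.Affine

/-- Decidable equality on the residue field (classical). -/
noncomputable local instance decEqResidue (A : ValuationSubring Qb) :
    DecidableEq (ResidueField A) := Classical.decEq _

/-- The `𝔽_ℓ`-algebra structure of the residue field. -/
noncomputable local instance algResidue (A : ValuationSubring Qb) (ℓ : ℕ)
    [CharP (ResidueField A) ℓ] : Algebra (ZMod ℓ) (ResidueField A) :=
  ZMod.algebra _ ℓ

section RdInt

variable {K : Type*} [Field K] (A : ValuationSubring K) {k : Type*} [Field k] (π : A →+* k)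

theorem rd_intCast (n : ℤ) : Rd A π (n : K) (n : k) :=
  ⟨(n : A), by push_cast; rfl, map_intCast π n⟩

end RdInt

section Galois

variable {A : ValuationSubring Qb}

/-- A Frobenius element at `A` maps integral elements to integral elements and acts as the
`ℓ`-th power on reductions. -/
theorem rd_frob {ℓ : ℕ} {σ : GQ} (hσ : A.IsFrobeniusAt σ ℓ) {x : Qb} {c : ResidueField A}
    (rx : Rd A (residue A) x c) : Rd A (residue A) (σ x) (c ^ ℓ) := by
  obtain ⟨a, rfl, rfl⟩ := rx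
  refine ⟨(⟨σ, hσ.mem_decompositionSubgroup⟩ : A.decompositionSubgroup ℚ) • a, rfl, ?_⟩
  rw [ResidueField.residue_smul]
  exact hσ.smul_residue_eq _

/-- An element of the inertia group at `A` maps integral elements to integral elements with the
same reduction. -/
theorem rd_inertia {τ : GQ} (hτ : τ ∈ A.inertiaSubgroupIn ℚ) {x : Qb} {c : ResidueField A}
    (rx : Rd A (residue A) x c) : Rd A (residue A) (τ x) c := by
  obtain ⟨a, rfl, rfl⟩ := rx
  obtain ⟨h1, h2⟩ := Fermat.Agent.S05.Inertia.mem_and_sub_mem_nonunits A τ hτ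
  refine ⟨⟨τ a, h1 a a.2⟩, rfl, ?_⟩
  have h3 : ((⟨τ a, h1 a a.2⟩ : A) - a : A) ∈ maximalIdeal A := by
    rw [← ValuationSubring.coe_mem_nonunits_iff]
    exact h2 a a.2
  rw [← sub_eq_zero, ← map_sub]
  exact (residue_eq_zero_iff _).mpr h3

end Galois

section Inst

variable (W : WeierstrassCurve ℤ) (A : ValuationSubring Qb) (ℓ : ℕ) [Fact ℓ.Prime]
  [CharP (ResidueField A) ℓ]

/-- The curve over `ℚ̄` of an integral model, with the base change of its reduction mod `ℓ` to
the residue field of `A`, is a model in the sense of `Red/Core`. -/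
theorem model_int : Model A (residue A) ((EQ W).toAffine⁄Qb)
    ((W.map (Int.castRingHom (ZMod ℓ))).toAffine⁄(ResidueField A)) := by
  have key : ∀ n : ℤ, Rd A (residue A) (algebraMap ℚ Qb (Int.castRingHom ℚ n))
      (algebraMap (ZMod ℓ) (ResidueField A) (Int.castRingHom (ZMod ℓ) n)) := by
    intro n
    have := rd_intCast A (residue A) n
    simpa using this
  exact ⟨key _, key _, key _, key _, key _⟩

theorem disc_ne_zero (hΔ : ¬ (ℓ : ℤ) ∣ W.Δ) :
    ((W.map (Int.castRingHom (ZMod ℓ))).toAffine⁄(ResidueField A)).Δ ≠ 0 := by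
  have e : ((W.map (Int.castRingHom (ZMod ℓ))).toAffine⁄(ResidueField A)).Δ =
      ((W.Δ : ℤ) : ResidueField A) := by
    change ((W.map (Int.castRingHom (ZMod ℓ))).map (algebraMap (ZMod ℓ) (ResidueField A))).Δ = _
    rw [map_Δ, map_Δ]
    simp
  rw [e]
  exact fun h => hΔ ((CharP.intCast_eq_zero_iff (ResidueField A) ℓ W.Δ).mp h)

theorem disc_zmod_ne_zero (hΔ : ¬ (ℓ : ℤ) ∣ W.Δ) :
    (W.map (Int.castRingHom (ZMod ℓ))).Δ ≠ 0 := by
  rw [map_Δ]
  intro h
  exact hΔ ((ZMod.intCast_zmod_eq_zero_iff_dvd _ ℓ).mp h)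

variable {W A ℓ}

theorem natCast_ne_zero_of_coprime {m : ℕ} (hm : m.Coprime ℓ) : (m : ResidueField A) ≠ 0 := by
  intro h
  have hdvd : ℓ ∣ m := (CharP.cast_eq_zero_iff (ResidueField A) ℓ m).mp h
  have h1 : ℓ ∣ 1 := by
    have := Nat.dvd_gcd hdvd (dvd_refl ℓ)
    rwa [hm] at this
  exact (Fact.out : ℓ.Prime).one_lt.ne' (Nat.dvd_one.mp h1)

theorem mem_torsSub_of_coprime {m : ℕ} (hm : m.Coprime ℓ) {P : EPt W} (hP : m • P = 0) :
    P ∈ torsSub (ResidueField A) ((EQ W).toAffine⁄Qb) :=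
  mem_torsSub_of_nsmul (natCast_ne_zero_of_coprime hm) hP

theorem smul_mem_torsSub (σ : GQ) {P : EPt W}
    (hP : P ∈ torsSub (ResidueField A) ((EQ W).toAffine⁄Qb)) :
    σ • P ∈ torsSub (ResidueField A) ((EQ W).toAffine⁄Qb) := by
  obtain ⟨n, hn, h⟩ := hP
  refine ⟨n, hn, ?_⟩
  rw [← Point.algEquiv_smul_zsmul, h, smul_zero]

/-- **Frobenius equivariance of the reduction map.** -/
theorem redPt_frob (hΔ : ¬ (ℓ : ℤ) ∣ W.Δ) {σ : GQ} (hσ : A.IsFrobeniusAt σ ℓ) {P : EPt W}
    (hP : P ∈ torsSub (ResidueField A) ((EQ W).toAffine⁄Qb)) :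
    redPt (model_int W A ℓ) (disc_ne_zero W A ℓ hΔ) (σ • P) =
      frobPt ℓ (W.map (Int.castRingHom (ZMod ℓ))) (ResidueField A)
        (redPt (model_int W A ℓ) (disc_ne_zero W A ℓ hΔ) P) := by
  have hint := isInt_of_mem_torsSub (model_int W A ℓ) hP
  rcases P with _ | ⟨x, y, h⟩
  · change redPt _ _ 0 = frobPt ℓ _ _ (redPt _ _ 0)
    rw [redPt_zero, map_zero]
  · have hxy : x ∈ A ∧ y ∈ A := hint
    have rx := rd_of_mem (π := residue A) hxy.1
    have ry := rd_of_mem (π := residue A) hxy.2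
    have g := (model_int W A ℓ).nonsingular (disc_ne_zero W A ℓ hΔ) h.1 rx ry
    rw [redPt_some_rd _ _ rx ry g]
    obtain ⟨h', e⟩ : ∃ h', σ • (Point.some x y h : EPt W) = Point.some (σ x) (σ y) h' :=
      ⟨_, rfl⟩
    rw [e]
    have hE := (model_int W A ℓ).nonsingular (disc_ne_zero W A ℓ hΔ) h'.1 (rd_frob hσ rx)
      (rd_frob hσ ry)
    rw [redPt_some_rd _ _ (rd_frob hσ rx) (rd_frob hσ ry) hE]
    unfold frobPt
    rw [Point.map_some, Point.some.injEq]
    simp [ZMod.card]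

/-- **The reduction map is invariant under inertia.** -/
theorem redPt_inertia (hΔ : ¬ (ℓ : ℤ) ∣ W.Δ) {τ : GQ} (hτ : τ ∈ A.inertiaSubgroupIn ℚ)
    {P : EPt W} (hP : P ∈ torsSub (ResidueField A) ((EQ W).toAffine⁄Qb)) :
    redPt (model_int W A ℓ) (disc_ne_zero W A ℓ hΔ) (τ • P) =
      redPt (model_int W A ℓ) (disc_ne_zero W A ℓ hΔ) P := by
  have hint := isInt_of_mem_torsSub (model_int W A ℓ) hP
  rcases P with _ | ⟨x, y, h⟩
  · rfl
  · have hxy : x ∈ A ∧ y ∈ A := hint
    have rx := rd_of_mem (π := residue A) hxy.1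
    have ry := rd_of_mem (π := residue A) hxy.2
    have g := (model_int W A ℓ).nonsingular (disc_ne_zero W A ℓ hΔ) h.1 rx ry
    rw [redPt_some_rd _ _ rx ry g]
    obtain ⟨h', e⟩ : ∃ h', τ • (Point.some x y h : EPt W) = Point.some (τ x) (τ y) h' :=
      ⟨_, rfl⟩
    rw [e]
    exact redPt_some_rd _ _ (rd_inertia hτ rx) (rd_inertia hτ ry) g

end Inst

/-! ### The interface statements -/

/-- **(GU)**: inertia at a good prime acts trivially on the prime-to-`q` torsion (every `q`). -/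
theorem goodUnram : GoodUnram := by
  intro W q hq hΔ A hA τ hτ m hm P hP
  haveI : Fact q.Prime := ⟨hq⟩
  haveI : CharP (ResidueField A) q :=
    Fermat.Agent.ESJ.Cong.ConjAnalytic.charP_residueField_of_liesOver A hq hA
  have hPT : P ∈ torsSub (ResidueField A) ((EQ W).toAffine⁄Qb) := mem_torsSub_of_coprime hm hP
  exact redPt_injOn (model_int W A q) (disc_ne_zero W A q hΔ) (smul_mem_torsSub τ hPT) hPT
    (redPt_inertia hΔ hτ hPT)

/-- **(FT) over `ℚ̄`** from the quadratic relation over algebraically closed fields of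
characteristic `ℓ`. -/
theorem frobQuad_of
    (h : ∀ (ℓ : ℕ) [Fact ℓ.Prime] (W : WeierstrassCurve (ZMod ℓ)) (K : Type) [Field K]
      [Algebra (ZMod ℓ) K] [IsAlgClosed K] [DecidableEq K], W.Δ ≠ 0 → QuadBar ℓ W K) :
    FrobQuad := by
  intro W ℓ hℓ hΔ A hA σ hσ m hm P hP
  haveI : Fact ℓ.Prime := ⟨hℓ⟩
  haveI : CharP (ResidueField A) ℓ :=
    Fermat.Agent.ESJ.Cong.ConjAnalytic.charP_residueField_of_liesOver A hℓ hA
  haveI : IsAlgClosed (ResidueField A) := Fermat.Agent.Lib.FF.CharP.isAlgClosed_residueField A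
  have hPT : P ∈ torsSub (ResidueField A) ((EQ W).toAffine⁄Qb) := mem_torsSub_of_coprime hm hP
  have hσP := smul_mem_torsSub σ hPT
  have hσσP := smul_mem_torsSub σ hσP
  have h1 : W.apOfModel ℓ • σ • P ∈ torsSub (ResidueField A) ((EQ W).toAffine⁄Qb) :=
    AddSubgroup.zsmul_mem _ hσP _
  have h2 : (ℓ : ℤ) • P ∈ torsSub (ResidueField A) ((EQ W).toAffine⁄Qb) :=
    AddSubgroup.zsmul_mem _ hPT _
  have h3 := AddSubgroup.sub_mem _ hσσP h1
  have key := h ℓ (W.map (Int.castRingHom (ZMod ℓ))) (ResidueField A)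
    (disc_zmod_ne_zero W ℓ hΔ) (redPt (model_int W A ℓ) (disc_ne_zero W A ℓ hΔ) P)
  apply (redPt_eq_zero_of_mem (model_int W A ℓ) (disc_ne_zero W A ℓ hΔ)
    (AddSubgroup.add_mem _ h3 h2)).mp
  rw [redPt_add_of_mem _ _ h3 h2, redPt_sub_of_mem _ _ hσσP h1, redPt_zsmul_of_mem _ _ hσP,
    redPt_zsmul_of_mem _ _ hPT, redPt_frob hΔ hσ hσP, redPt_frob hΔ hσ hPT]
  exact key

/-- **(NS) over `ℚ̄`** from the kernel bound over algebraically closed fields of
characteristic `ℓ`. -/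
theorem frobNotScalar_of
    (h : ∀ (ℓ : ℕ) [Fact ℓ.Prime] (W : WeierstrassCurve (ZMod ℓ)) (K : Type) [Field K]
      [Algebra (ZMod ℓ) K] [IsAlgClosed K] [DecidableEq K], W.Δ ≠ 0 → KerBoundBar ℓ W K) :
    FrobNotScalar := by
  intro W ℓ hℓ hΔ A hA σ hσ lam hlam hne
  haveI : Fact ℓ.Prime := ⟨hℓ⟩
  haveI : CharP (ResidueField A) ℓ :=
    Fermat.Agent.ESJ.Cong.ConjAnalytic.charP_residueField_of_liesOver A hℓ hA
  haveI : IsAlgClosed (ResidueField A) := Fermat.Agent.Lib.FF.CharP.isAlgClosed_residueField A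
  have hΔ0 : W.Δ ≠ 0 := by
    intro h0
    exact hΔ (h0 ▸ dvd_zero _)
  have hT : ∀ (n : ℕ) (P : EPt W), lam ^ n • P = 0 →
      P ∈ torsSub (ResidueField A) ((EQ W).toAffine⁄Qb) := by
    intro n P hP
    refine mem_torsSub_of_coprime (m := lam ^ n) ?_ hP
    exact Nat.Coprime.pow_left n ((Nat.coprime_primes hlam hℓ).mpr hne)
  exact NotScalar.exists_level_of_red W hΔ0 σ
    (frobPt ℓ (W.map (Int.castRingHom (ZMod ℓ))) (ResidueField A))
    (W.map (Int.castRingHom (ZMod ℓ))).traceOfFrobenius (ℓ : ℤ) lam hlam.two_le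
    (h ℓ (W.map (Int.castRingHom (ZMod ℓ))) (ResidueField A) (disc_zmod_ne_zero W ℓ hΔ))
    (redPt (model_int W A ℓ) (disc_ne_zero W A ℓ hΔ))
    (fun n P Q hP hQ hPQ => redPt_injOn _ _ (hT n P hP) (hT n Q hQ) hPQ)
    (fun n m P hP => redPt_zsmul_of_mem _ _ (hT n P hP) m)
    (fun n P hP => redPt_frob hΔ hσ (hT n P hP))

end Fermat.Agent.S58.Red
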