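/-
S58-PREP, row 374 (FT-RED), closing file: the two elliptic-curve interface Props

  `frobQuad      : FrobQuad`       (σ² − a_ℓ σ + ℓ = 0 on prime-to-ℓ torsion, σ a Frobenius lift)
  `frobNotScalar : FrobNotScalar`

(and the Tate-module consequences `tFrob_closed : TFrob`, `tGood_closed : TGood`)
as unconditional theorems: `Red.frobQuad_of` / `Red.frobNotScalar_of` (reduction of torsion
points, `Red/Inst.lean`) applied to `QuadCount.quadBar` / `QuadCount.kerBoundBar`
(row 373, the Frobenius relation over algebraically closed fields of characteristic `ℓ`).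
-/
import Fermat.Agent.S58.Red.Inst
import Fermat.Agent.S58.FT.QuadCount
import Fermat.Agent.S58.TLevelFrob

set_option autoImplicit false

namespace Fermat.Agent.S58.Red

/-- **(FT) over `ℚ̄`**, unconditional. -/
theorem frobQuad : FrobQuad :=
  frobQuad_of (fun ℓ _ W K _ _ _ _ hΔ => QuadCount.quadBar ℓ W K hΔ)

/-- **(NS) over `ℚ̄`**, unconditional. -/
theorem frobNotScalar : FrobNotScalar :=
  frobNotScalar_of (fun ℓ _ W K _ _ _ _ hΔ => QuadCount.kerBoundBar ℓ W K hΔ)

/-- **(T-FROB)**, unconditional: the characteristic polynomial of a Frobenius lift at a good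
prime `ℓ ≠ lam` on the `lam`-adic Tate module is `X² − a_ℓ X + ℓ`. -/
theorem tFrob_closed : TFrob := TLevelFrob.tFrob frobQuad frobNotScalar

/-- **(T-GOOD)**, unconditional: inertia at a good prime `q ≠ lam` acts trivially on the
`lam`-adic Tate module. -/
theorem tGood_closed : TGood := TLevelFrob.tGood goodUnram

end Fermat.Agent.S58.Red
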