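/-
S58-6 (row 374, owner helper61; this file: helper67): what a reduction map gives.

Let `red : E(ℚ̄) → H` be a map to an abelian group which, on the `m`-torsion, is additive and has
trivial kernel.  Then every identity between the operators on `H` is reflected on `E[m]`:

* `frobQuad_of_red`  : `φ² - a φ + ℓ = 0` on `H` and `red ∘ σ = φ ∘ red` on `E[m]` give
  `σ² - a σ + ℓ = 0` on `E[m]` (the literal conclusion of `FrobQuad`);
* `goodUnram_of_red` : `red ∘ τ = red` on `E[m]` gives `τ = 1` on `E[m]` (the literal conclusion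
  of `GoodUnram`);
* `frobNotScalar_of_red` : the kernel bound on `H` gives the literal conclusion of
  `FrobNotScalar` (`NotScalar.exists_level_of_red` with additivity instead of `ℤ`-linearity).

The abstract versions (`quad_of_red`, `fixed_of_red`, `red_zsmul_of_add`, `red_injOn_of_add`) are
stated for arbitrary abelian groups.
-/
import Mathlib
import Fermat.Agent.S58.Interfaces
import Fermat.Agent.S58.Red.NotScalar

set_option autoImplicit false

namespace Fermat.Agent.S58.Red.OfRed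

section Abstract

variable {G H : Type*} [AddCommGroup G] [AddCommGroup H]

/-- The restriction of `red` to the `N`-torsion, as an additive homomorphism. -/
noncomputable def redHom (N : ℕ) (red : G → H)
    (hadd : ∀ P Q : G, N • P = 0 → N • Q = 0 → red (P + Q) = red P + red Q) :
    (nsmulAddMonoidHom N : G →+ G).ker →+ H :=
  AddMonoidHom.mk' (fun P => red P.1) fun P Q =>
    hadd P.1 Q.1 ((AddMonoidHom.mem_ker).mp P.2) ((AddMonoidHom.mem_ker).mp Q.2)

theorem redHom_apply (N : ℕ) (red : G → H)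
    (hadd : ∀ P Q : G, N • P = 0 → N • Q = 0 → red (P + Q) = red P + red Q)
    (P : (nsmulAddMonoidHom N : G →+ G).ker) : redHom N red hadd P = red P.1 := rfl

/-- Additivity on the `N`-torsion gives `ℤ`-linearity on the `N`-torsion. -/
theorem red_zsmul_of_add (N : ℕ) (red : G → H)
    (hadd : ∀ P Q : G, N • P = 0 → N • Q = 0 → red (P + Q) = red P + red Q)
    (m : ℤ) (P : G) (hP : N • P = 0) : red (m • P) = m • red P := by
  have hmem : P ∈ (nsmulAddMonoidHom N : G →+ G).ker := (AddMonoidHom.mem_ker).mpr hP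
  have h := map_zsmul (redHom N red hadd) m ⟨P, hmem⟩
  rw [redHom_apply, redHom_apply] at h
  exact h

/-- Additivity and trivial kernel on the `N`-torsion give injectivity on the `N`-torsion. -/
theorem red_injOn_of_add (N : ℕ) (red : G → H)
    (hinj : ∀ P : G, N • P = 0 → red P = 0 → P = 0)
    (hadd : ∀ P Q : G, N • P = 0 → N • Q = 0 → red (P + Q) = red P + red Q)
    (P Q : G) (hP : N • P = 0) (hQ : N • Q = 0) (h : red P = red Q) : P = Q := by
  have hP' : P ∈ (nsmulAddMonoidHom N : G →+ G).ker := (AddMonoidHom.mem_ker).mpr hP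
  have hQ' : Q ∈ (nsmulAddMonoidHom N : G →+ G).ker := (AddMonoidHom.mem_ker).mpr hQ
  have h1 := map_sub (redHom N red hadd) ⟨P, hP'⟩ ⟨Q, hQ'⟩
  rw [redHom_apply, redHom_apply, redHom_apply, h, sub_self] at h1
  have h2 : N • (P - Q) = 0 := by rw [smul_sub, hP, hQ, sub_zero]
  exact sub_eq_zero.mp (hinj (P - Q) h2 h1)

/-- A quadratic relation of `φ` on `H` is reflected on the `N`-torsion of `G`. -/
theorem quad_of_red (σ : G → G) (φ : H → H) (a ℓ : ℤ)
    (hquad : ∀ R : H, φ (φ R) - a • φ R + ℓ • R = 0) (N : ℕ)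
    (hσN : ∀ P : G, N • P = 0 → N • σ P = 0) (red : G → H)
    (hinj : ∀ P : G, N • P = 0 → red P = 0 → P = 0)
    (hadd : ∀ P Q : G, N • P = 0 → N • Q = 0 → red (P + Q) = red P + red Q)
    (hσ : ∀ P : G, N • P = 0 → red (σ P) = φ (red P)) (P : G) (hP : N • P = 0) :
    σ (σ P) - a • σ P + ℓ • P = 0 := by
  have h0 : P ∈ (nsmulAddMonoidHom N : G →+ G).ker := (AddMonoidHom.mem_ker).mpr hP
  have h1 : σ P ∈ (nsmulAddMonoidHom N : G →+ G).ker := (AddMonoidHom.mem_ker).mpr (hσN P hP)
  have h2 : σ (σ P) ∈ (nsmulAddMonoidHom N : G →+ G).ker :=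
    (AddMonoidHom.mem_ker).mpr (hσN _ (hσN P hP))
  let X : (nsmulAddMonoidHom N : G →+ G).ker := ⟨σ (σ P), h2⟩ - a • ⟨σ P, h1⟩ + ℓ • ⟨P, h0⟩
  have hX : (X : G) = σ (σ P) - a • σ P + ℓ • P := rfl
  have hred : red (X : G) = 0 := by
    have h3 : redHom N red hadd X = redHom N red hadd ⟨σ (σ P), h2⟩ -
        a • redHom N red hadd ⟨σ P, h1⟩ + ℓ • redHom N red hadd ⟨P, h0⟩ := by
      rw [map_add, map_sub, map_zsmul, map_zsmul]
    rw [redHom_apply, redHom_apply, redHom_apply, redHom_apply] at h3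
    rw [h3, hσ _ (hσN P hP), hσ P hP]
    exact hquad (red P)
  rw [← hX]
  exact hinj _ ((AddMonoidHom.mem_ker).mp X.2) hred

/-- A map which is invisible after reduction fixes the `N`-torsion. -/
theorem fixed_of_red (τ : G → G) (N : ℕ) (hτN : ∀ P : G, N • P = 0 → N • τ P = 0)
    (red : G → H) (hinj : ∀ P : G, N • P = 0 → red P = 0 → P = 0)
    (hadd : ∀ P Q : G, N • P = 0 → N • Q = 0 → red (P + Q) = red P + red Q)
    (hτ : ∀ P : G, N • P = 0 → red (τ P) = red P) (P : G) (hP : N • P = 0) : τ P = P :=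
  red_injOn_of_add N red hinj hadd (τ P) P (hτN P hP) hP (hτ P hP)

end Abstract

section Points

variable (W : WeierstrassCurve ℤ)

/-- The Galois action preserves the `m`-torsion. -/
theorem nsmul_galois_smul (σ : GQ) (m : ℕ) (P : EPt W) (hP : m • P = 0) : m • σ • P = 0 := by
  have h := map_nsmul (DistribSMul.toAddMonoidHom (EPt W) σ) m P
  rw [DistribSMul.toAddMonoidHom_apply, DistribSMul.toAddMonoidHom_apply, hP, smul_zero] at h
  exact h.symm

/-- **(FT), transfer**: the quadratic relation of the Frobenius on the reduction gives the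
quadratic relation of a Frobenius lift on the `m`-torsion. -/
theorem frobQuad_of_red (σ : GQ) {H : Type*} [AddCommGroup H] (φ : H → H) (a ℓ : ℤ)
    (hquad : ∀ R : H, φ (φ R) - a • φ R + ℓ • R = 0) (m : ℕ) (red : EPt W → H)
    (hinj : ∀ P : EPt W, m • P = 0 → red P = 0 → P = 0)
    (hadd : ∀ P Q : EPt W, m • P = 0 → m • Q = 0 → red (P + Q) = red P + red Q)
    (hσ : ∀ P : EPt W, m • P = 0 → red (σ • P) = φ (red P)) (P : EPt W) (hP : m • P = 0) :
    σ • σ • P - a • σ • P + ℓ • P = 0 :=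
  quad_of_red (fun P => σ • P) φ a ℓ hquad m (nsmul_galois_smul W σ m) red hinj hadd hσ P hP

/-- **(GU), transfer**: an automorphism invisible after reduction fixes the `m`-torsion. -/
theorem goodUnram_of_red (τ : GQ) {H : Type*} [AddCommGroup H] (m : ℕ) (red : EPt W → H)
    (hinj : ∀ P : EPt W, m • P = 0 → red P = 0 → P = 0)
    (hadd : ∀ P Q : EPt W, m • P = 0 → m • Q = 0 → red (P + Q) = red P + red Q)
    (hτ : ∀ P : EPt W, m • P = 0 → red (τ • P) = red P) (P : EPt W) (hP : m • P = 0) :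
    τ • P = P :=
  fixed_of_red (fun P => τ • P) m (nsmul_galois_smul W τ m) red hinj hadd hτ P hP

/-- **(NS), transfer**: the kernel bound on the reduction shows that a Frobenius lift is not a
scalar on `E[lam ^ n]` for some `n`. -/
theorem frobNotScalar_of_red (hΔ : W.Δ ≠ 0) (σ : GQ) {H : Type*} [AddCommGroup H] (φ : H → H)
    (a ℓ : ℤ) (lam : ℕ) (hlam : 2 ≤ lam)
    (hbound : ∀ m : ℤ, {R : H | φ R = m • R}.Finite ∧
      (({R : H | φ R = m • R}.ncard : ℤ) ≤ 2 * (m ^ 2 - a * m + ℓ)))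
    (red : EPt W → H)
    (hinj : ∀ (n : ℕ) (P : EPt W), lam ^ n • P = 0 → red P = 0 → P = 0)
    (hadd : ∀ (n : ℕ) (P Q : EPt W), lam ^ n • P = 0 → lam ^ n • Q = 0 →
      red (P + Q) = red P + red Q)
    (hσ : ∀ (n : ℕ) (P : EPt W), lam ^ n • P = 0 → red (σ • P) = φ (red P)) :
    ∃ n : ℕ, ∀ c : ℤ, ∃ P : EPt W, lam ^ n • P = 0 ∧ σ • P ≠ c • P :=
  NotScalar.exists_level_of_red W hΔ σ φ a ℓ lam hlam hbound red
    (fun n => red_injOn_of_add (lam ^ n) red (hinj n) (hadd n))
    (fun n m P hP => red_zsmul_of_add (lam ^ n) red (hadd n) m P hP) hσ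

end Points

end Fermat.Agent.S58.Red.OfRed
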