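/-
S58-6 (row 374, owner helper61; this file: helper67): the residue field `k_A` of a valuation
subring `A` of a field `L` (e.g. `L = ℚ̄`) lying over a prime `ℓ`, as the field over which the
reduction of an integral Weierstrass model lives.

* `charP_of_liesOver`, `isAlgClosed`, `algebraZMod` : `k_A` has characteristic `ℓ`, is
  algebraically closed when `L` is, and is a `ZMod ℓ`-algebra;
* `residue_frobenius` : a Frobenius element at `A` raises residues to the `ℓ`-th power;
  `frobeniusAlgHom_residue` : the same with `FiniteField.frobeniusAlgHom (ZMod ℓ) k_A`;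
* `residue_inertia` : the inertia group acts trivially on residues;
* `reductionMod_map`, `reductionMod_baseChange` : the base change to `k_A` of the reduction mod
  `ℓ` of an integral model `W` is the reduction of `W` along `A → k_A`;
* `reductionMod_Δ_ne_zero`, `Δ_ne_zero_of_not_dvd`, `apOfModel_eq` : bookkeeping;
* `frobPt_zero`, `frobPt_some` : the Frobenius of the interface on coordinates.
-/
import Mathlib
import Fermat.Agent.S58.Interfaces
import Fermat.Agent.S58.FTInterfaces

set_option autoImplicit false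
set_option linter.style.haveILetI false

namespace Fermat.Agent.S58.Red.ResField

open IsLocalRing WeierstrassCurve

/-! ### The residue field -/

section General

variable {L : Type*} [Field L] (A : ValuationSubring L)

/-- The residue field of a valuation ring over `ℓ` has characteristic `ℓ`. -/
theorem charP_of_liesOver {ℓ : ℕ} (hℓ : ℓ.Prime) (hA : A.LiesOverPrime ℓ) :
    CharP (ResidueField A) ℓ := by
  rw [CharP.charP_iff_prime_eq_zero hℓ]
  have h1 : ((ℓ : A) : L) ∈ A.nonunits := by
    have h2 : ((ℓ : A) : L) = (ℓ : L) := by push_cast; rfl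
    rw [h2]
    exact hA
  have h3 : (ℓ : A) ∈ maximalIdeal A := ValuationSubring.coe_mem_nonunits_iff.mp h1
  have h4 : residue A (ℓ : A) = 0 := (residue_eq_zero_iff _).mpr h3
  rwa [map_natCast] at h4

/-- The residue field of a valuation subring of an algebraically closed field is algebraically
closed. -/
theorem isAlgClosed [IsAlgClosed L] : IsAlgClosed (ResidueField A) := by
  refine IsAlgClosed.of_exists_root _ fun f hf hirr => ?_
  have hlift : f ∈ Polynomial.lifts (residue A) :=
    (Polynomial.map_surjective _ residue_surjective f).elim fun g hg =>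
      (Polynomial.mem_lifts f).2 ⟨g, hg⟩
  obtain ⟨g, hgf, hgdeg, hgm⟩ := Polynomial.lifts_and_natDegree_eq_and_monic hlift hf
  have hdeg : (g.map A.subtype).degree ≠ 0 := by
    rw [Polynomial.degree_map_eq_of_injective A.subtype_injective]
    have h1 : 0 < f.natDegree := hirr.natDegree_pos
    have h2 : 0 < g.natDegree := by omega
    exact (Polynomial.natDegree_pos_iff_degree_pos.1 h2).ne'
  obtain ⟨α, hα⟩ := IsAlgClosed.exists_root (g.map A.subtype) hdeg
  have hαint : IsIntegral A α := ⟨g, hgm, by rw [← Polynomial.eval_map]; exact hα⟩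
  obtain ⟨y, rfl⟩ := (IsIntegrallyClosed.isIntegral_iff (R := A) (K := L)).1 hαint
  refine ⟨residue A y, ?_⟩
  have h0 : g.eval y = 0 := by
    apply A.subtype_injective
    rw [map_zero, ← Polynomial.eval₂_at_apply, Polynomial.eval₂_eq_eval_map]
    exact hα
  rw [← hgf, Polynomial.eval_map, Polynomial.eval₂_at_apply, h0, map_zero]

/-- The `ZMod ℓ`-algebra structure of the residue field of a valuation ring over `ℓ`. -/
@[reducible] noncomputable def algebraZMod (ℓ : ℕ) [Fact ℓ.Prime] (hA : A.LiesOverPrime ℓ) :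
    Algebra (ZMod ℓ) (ResidueField A) :=
  haveI := charP_of_liesOver A (Fact.out : ℓ.Prime) hA
  ZMod.algebra _ ℓ

/-- The Frobenius of the `ZMod ℓ`-algebra `k_A` is the `ℓ`-th power map. -/
theorem frobeniusAlgHom_apply (ℓ : ℕ) [Fact ℓ.Prime] (hA : A.LiesOverPrime ℓ)
    (y : ResidueField A) :
    letI := algebraZMod A ℓ hA
    FiniteField.frobeniusAlgHom (ZMod ℓ) (ResidueField A) y = y ^ ℓ := by
  letI := algebraZMod A ℓ hA
  rw [FiniteField.coe_frobeniusAlgHom, ZMod.card]

end General

/-! ### Frobenius elements and inertia on residues -/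

section Galois

variable {K L : Type*} [Field K] [Field L] [Algebra K L] (A : ValuationSubring L)

/-- The decomposition group preserves the valuation ring. -/
theorem mem_of_mem_decompositionSubgroup (σ : L ≃ₐ[K] L) (hσ : σ ∈ A.decompositionSubgroup K)
    {x : L} (hx : x ∈ A) : σ x ∈ A :=
  ((⟨σ, hσ⟩ : A.decompositionSubgroup K) • (⟨x, hx⟩ : A)).2

/-- A Frobenius element at `A` raises residues to the `ℓ`-th power. -/
theorem residue_frobenius (σ : L ≃ₐ[K] L) (ℓ : ℕ) (hσ : A.IsFrobeniusAt σ ℓ) {x : L}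
    (hx : x ∈ A) :
    ∃ hσx : σ x ∈ A, residue A ⟨σ x, hσx⟩ = residue A ⟨x, hx⟩ ^ ℓ := by
  obtain ⟨hmem, h⟩ := hσ
  refine ⟨mem_of_mem_decompositionSubgroup A σ hmem hx, ?_⟩
  have h1 : (⟨σ x, mem_of_mem_decompositionSubgroup A σ hmem hx⟩ : A) =
      (⟨σ, hmem⟩ : A.decompositionSubgroup K) • (⟨x, hx⟩ : A) := rfl
  rw [h1, ResidueField.residue_smul]
  exact h _

/-- The inertia group acts trivially on residues. -/
theorem residue_inertia (τ : L ≃ₐ[K] L) (hτ : τ ∈ A.inertiaSubgroupIn K) {x : L} (hx : x ∈ A) :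
    ∃ hτx : τ x ∈ A, residue A ⟨τ x, hτx⟩ = residue A ⟨x, hx⟩ := by
  obtain ⟨g, hg, rfl⟩ := Subgroup.mem_map.mp hτ
  refine ⟨mem_of_mem_decompositionSubgroup A g.1 g.2 hx, ?_⟩
  change residue A (g • (⟨x, hx⟩ : A)) = residue A ⟨x, hx⟩
  rw [ResidueField.residue_smul]
  have h2 : MulSemiringAction.toRingAut (A.decompositionSubgroup K) (ResidueField A) g = 1 :=
    MonoidHom.mem_ker.mp hg
  have h3 := congrArg (fun e : RingAut (ResidueField A) => e (residue A ⟨x, hx⟩)) h2
  exact h3

/-- A Frobenius element at `A` acts on residues as the Frobenius of the `ZMod ℓ`-algebra `k_A`. -/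
theorem frobeniusAlgHom_residue (σ : L ≃ₐ[K] L) (ℓ : ℕ) [Fact ℓ.Prime] (hA : A.LiesOverPrime ℓ)
    (hσ : A.IsFrobeniusAt σ ℓ) {x : L} (hx : x ∈ A) :
    ∃ hσx : σ x ∈ A,
      letI := algebraZMod A ℓ hA
      residue A ⟨σ x, hσx⟩ =
        FiniteField.frobeniusAlgHom (ZMod ℓ) (ResidueField A) (residue A ⟨x, hx⟩) := by
  obtain ⟨hσx, h⟩ := residue_frobenius A σ ℓ hσ hx
  exact ⟨hσx, by rw [frobeniusAlgHom_apply A ℓ hA]; exact h⟩

end Galois

/-! ### The reduced curve -/

section Curve

variable {L : Type*} [Field L] (A : ValuationSubring L) (ℓ : ℕ) [Fact ℓ.Prime]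
  (W : WeierstrassCurve ℤ)

/-- The base change to `k_A` of the reduction mod `ℓ` is the reduction along `A → k_A`. -/
theorem reductionMod_map (hA : A.LiesOverPrime ℓ) :
    letI := algebraZMod A ℓ hA
    (W.reductionMod ℓ).map (algebraMap (ZMod ℓ) (ResidueField A)) =
      (W.map (Int.castRingHom A)).map (residue A) := by
  letI := algebraZMod A ℓ hA
  rw [WeierstrassCurve.reductionMod, WeierstrassCurve.map_map, WeierstrassCurve.map_map]
  congr 1
  exact RingHom.ext_int _ _

/-- `reductionMod_map` in terms of `baseChange`. -/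
theorem reductionMod_baseChange (hA : A.LiesOverPrime ℓ) :
    letI := algebraZMod A ℓ hA
    (W.reductionMod ℓ).baseChange (ResidueField A) =
      (W.map (Int.castRingHom A)).map (residue A) :=
  reductionMod_map A ℓ W hA

/-- The reduction along `A → k_A` in terms of `Int.castRingHom`. -/
theorem map_map_residue :
    (W.map (Int.castRingHom A)).map (residue A) = W.map (Int.castRingHom (ResidueField A)) := by
  rw [WeierstrassCurve.map_map]
  congr 1

omit [Fact ℓ.Prime] in
/-- A good prime does not divide a vanishing discriminant. -/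
theorem Δ_ne_zero_of_not_dvd (hΔ : ¬ (ℓ : ℤ) ∣ W.Δ) : W.Δ ≠ 0 :=
  fun h => hΔ (h ▸ dvd_zero _)

/-- At a good prime the reduction mod `ℓ` is non-singular. -/
theorem reductionMod_Δ_ne_zero (hΔ : ¬ (ℓ : ℤ) ∣ W.Δ) : (W.reductionMod ℓ).Δ ≠ 0 := by
  rw [WeierstrassCurve.reductionMod, WeierstrassCurve.map_Δ]
  intro h
  apply hΔ
  rw [eq_intCast] at h
  exact (ZMod.intCast_zmod_eq_zero_iff_dvd _ _).mp h

omit [Fact ℓ.Prime] in
/-- The trace of Frobenius of the model is that of its reduction (by definition). -/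
theorem apOfModel_eq : W.apOfModel ℓ = (W.reductionMod ℓ).traceOfFrobenius := rfl

end Curve

/-! ### The Frobenius of the interface on coordinates -/

section FrobPt

open scoped WeierstrassCurve.Affine

variable (ℓ : ℕ) [Fact ℓ.Prime] (W : WeierstrassCurve (ZMod ℓ))
  (K : Type*) [Field K] [Algebra (ZMod ℓ) K] [DecidableEq K]

theorem frobPt_zero : frobPt ℓ W K 0 = 0 := map_zero _

theorem frobPt_some {x y : K} (h : (W.toAffine⁄K).Nonsingular x y) :
    ∃ h' : (W.toAffine⁄K).Nonsingular (x ^ ℓ) (y ^ ℓ),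
      frobPt ℓ W K (Affine.Point.some x y h) = Affine.Point.some (x ^ ℓ) (y ^ ℓ) h' := by
  have h1 : FiniteField.frobeniusAlgHom (ZMod ℓ) K x = x ^ ℓ := by
    rw [FiniteField.coe_frobeniusAlgHom, ZMod.card]
  have h2 : FiniteField.frobeniusAlgHom (ZMod ℓ) K y = y ^ ℓ := by
    rw [FiniteField.coe_frobeniusAlgHom, ZMod.card]
  have h3 := Affine.Point.map_some (W' := W.toAffine) (FiniteField.frobeniusAlgHom (ZMod ℓ) K) h
  rw [← h1, ← h2]
  exact ⟨_, h3⟩

end FrobPt

end Fermat.Agent.S58.Red.ResField
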